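import Mathlib

/-!
# The perfect graph theorem

A finite graph is perfect when each induced subgraph is coloured by as many colours as its largest
clique has points. Gasparian's linear algebra proof of Lovász's criterion, every induced subgraph
on `m` points satisfies `m ≤ α ω`, gives the weak perfect graph theorem.
-/

set_option autoImplicit false

noncomputable section

namespace FA.PerfectGraph

open Finset Classical

variable {V : Type*}

/-- The largest size of a clique of `G` inside `W`. -/
def omegaOn (G : SimpleGraph V) (W : Finset V) : ℕ :=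
  (W.powerset.filter fun K : Finset V => G.IsClique (K : Set V)).sup Finset.card

/-- The largest size of an independent set of `G` inside `W`. -/
def alphaOn (G : SimpleGraph V) (W : Finset V) : ℕ := omegaOn Gᶜ W

/-- `W` can be coloured properly with the colours below `n`. -/
def ColOn (G : SimpleGraph V) (W : Finset V) (n : ℕ) : Prop :=
  ∃ f : V → ℕ, (∀ v ∈ W, f v < n) ∧ ∀ u ∈ W, ∀ v ∈ W, G.Adj u v → f u ≠ f v

variable {G : SimpleGraph V}

lemma card_le_omegaOn {W K : Finset V} (h : K ⊆ W) (hK : G.IsClique (K : Set V)) :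
    K.card ≤ omegaOn G W :=
  Finset.le_sup (f := Finset.card)
    (s := W.powerset.filter fun K : Finset V => G.IsClique (K : Set V))
    (mem_filter.2 ⟨mem_powerset.2 h, hK⟩)

lemma exists_omegaOn (W : Finset V) :
    ∃ K, K ⊆ W ∧ G.IsClique (K : Set V) ∧ K.card = omegaOn G W := by
  have hne : (W.powerset.filter fun K : Finset V => G.IsClique (K : Set V)).Nonempty :=
    ⟨∅, mem_filter.2 ⟨mem_powerset.2 (empty_subset _), by simp⟩⟩
  obtain ⟨K, hK, he⟩ := Finset.exists_mem_eq_sup _ hne Finset.card
  obtain ⟨h1, h2⟩ := mem_filter.1 hK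
  exact ⟨K, mem_powerset.1 h1, h2, he.symm⟩

lemma omegaOn_mono {U W : Finset V} (h : U ⊆ W) : omegaOn G U ≤ omegaOn G W := by
  obtain ⟨K, h1, h2, h3⟩ := exists_omegaOn (G := G) U
  exact h3 ▸ card_le_omegaOn (h1.trans h) h2

lemma exists_alphaOn (W : Finset V) :
    ∃ S, S ⊆ W ∧ G.IsIndepSet (S : Set V) ∧ S.card = alphaOn G W := by
  obtain ⟨S, h1, h2, h3⟩ := exists_omegaOn (G := Gᶜ) W
  exact ⟨S, h1, (SimpleGraph.isClique_compl G).1 h2, h3⟩

lemma card_le_alphaOn {W S : Finset V} (h : S ⊆ W) (hS : G.IsIndepSet (S : Set V)) :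
    S.card ≤ alphaOn G W :=
  card_le_omegaOn h ((SimpleGraph.isClique_compl G).2 hS)

lemma alphaOn_compl (W : Finset V) : alphaOn Gᶜ W = omegaOn G W := by simp [alphaOn]

lemma card_inter_le_one {K S : Finset V} (hK : G.IsClique (K : Set V))
    (hS : G.IsIndepSet (S : Set V)) : (K ∩ S).card ≤ 1 := by
  rw [Finset.card_le_one]
  intro a ha b hb
  by_contra hne
  exact hS (mem_coe.2 (mem_inter.1 ha).2) (mem_coe.2 (mem_inter.1 hb).2) hne
    (hK (mem_coe.2 (mem_inter.1 ha).1) (mem_coe.2 (mem_inter.1 hb).1) hne)

/-- A colour class of a colouring is independent. -/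
lemma isIndepSet_class {W : Finset V} {f : V → ℕ}
    (hf : ∀ u ∈ W, ∀ v ∈ W, G.Adj u v → f u ≠ f v) (c : ℕ) :
    G.IsIndepSet ((W.filter fun v => f v = c : Finset V) : Set V) := by
  intro a ha b hb _ hadj
  obtain ⟨ha1, ha2⟩ := mem_filter.1 (mem_coe.1 ha)
  obtain ⟨hb1, hb2⟩ := mem_filter.1 (mem_coe.1 hb)
  exact hf a ha1 b hb1 hadj (ha2.trans hb2.symm)

lemma ColOn.card_le {W : Finset V} {n : ℕ} (h : ColOn G W n) :
    W.card ≤ alphaOn G W * n := by
  obtain ⟨f, hf1, hf2⟩ := h
  rw [Finset.card_eq_sum_card_fiberwise (f := f) (t := range n)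
    (fun v hv => mem_coe.2 (mem_range.2 (hf1 v hv)))]
  calc _ ≤ ∑ _c ∈ range n, alphaOn G W := sum_le_sum fun c _ =>
        card_le_alphaOn (filter_subset _ _) (isIndepSet_class hf2 c)
    _ = alphaOn G W * n := by simp [mul_comm]

lemma ColOn.omegaOn_le {W : Finset V} {n : ℕ} (h : ColOn G W n) : omegaOn G W ≤ n := by
  obtain ⟨f, hf1, hf2⟩ := h
  obtain ⟨K, h1, h2, h3⟩ := exists_omegaOn (G := G) W
  have h4 : Set.InjOn f (K : Set V) := by
    intro a ha b hb he
    by_contra hne
    exact hf2 a (h1 ha) b (h1 hb) (h2 ha hb hne) he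
  rw [← h3, ← Finset.card_image_of_injOn h4]
  refine le_trans (Finset.card_le_card ?_) (card_range n).le
  intro c hc
  obtain ⟨v, hv, rfl⟩ := mem_image.1 hc
  exact mem_range.2 (hf1 v (h1 hv))

/-- Gasparian's theorem: if every induced subgraph on `m` points has `m ≤ α ω` then every one has
a colouring with `ω` colours. -/
theorem gasparian (h : ∀ U : Finset V, U.card ≤ alphaOn G U * omegaOn G U) (W : Finset V) :
    ColOn G W (omegaOn G W) := by
  induction W using Finset.strongInduction with
  | H W IH =>
    by_cases hempty : W = ∅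
    · subst hempty
      exact ⟨fun _ => 0, by simp, by simp⟩
    have hWne : W.Nonempty := nonempty_iff_ne_empty.2 hempty
    by_contra hcol
    set ω := omegaOn G W with hω
    -- every independent set misses a largest clique
    have key : ∀ S, S ⊆ W → G.IsIndepSet (S : Set V) →
        ∃ K, K ⊆ W ∧ G.IsClique (K : Set V) ∧ K.card = ω ∧ Disjoint K S := by
      intro S hSW hS
      obtain ⟨K, hK1, hK2, hK3⟩ := exists_omegaOn (G := G) (W \ S)
      by_cases hlt : omegaOn G (W \ S) = ω
      · exact ⟨K, hK1.trans sdiff_subset, hK2, hK3.trans hlt,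
          disjoint_left.2 fun v hv hvS => (mem_sdiff.1 (hK1 hv)).2 hvS⟩
      · have hlt' : omegaOn G (W \ S) < ω := lt_of_le_of_ne (omegaOn_mono sdiff_subset) hlt
        have hne : S.Nonempty := by
          rw [nonempty_iff_ne_empty]
          rintro rfl
          simp [← hω] at hlt
        have hss : W \ S ⊂ W := sdiff_ssubset hSW hne
        obtain ⟨f, hf1, hf2⟩ := IH _ hss
        refine absurd ⟨fun v => if v ∈ S then ω - 1 else f v, ?_, ?_⟩ hcol
        · intro v hv
          dsimp only
          split_ifs with h1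
          · omega
          · exact lt_trans (hf1 v (mem_sdiff.2 ⟨hv, h1⟩)) hlt'
        · intro u hu v hv hadj
          dsimp only
          split_ifs with h1 h2 h2
          · exact absurd hadj (hS (mem_coe.2 h1) (mem_coe.2 h2) hadj.ne)
          · have := hf1 v (mem_sdiff.2 ⟨hv, h2⟩); omega
          · have := hf1 u (mem_sdiff.2 ⟨hu, h1⟩); omega
          · exact hf2 u (mem_sdiff.2 ⟨hu, h1⟩) v (mem_sdiff.2 ⟨hv, h2⟩) hadj
    obtain ⟨S0, hS0W, hS0, hS0card⟩ := exists_alphaOn (G := G) W
    have hcols : ∀ v : S0, ∃ f : V → ℕ, (∀ u ∈ W.erase v.1, f u < ω) ∧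
        ∀ a ∈ W.erase v.1, ∀ b ∈ W.erase v.1, G.Adj a b → f a ≠ f b := by
      intro v
      obtain ⟨f, hf1, hf2⟩ := IH _ (erase_ssubset (hS0W v.2))
      exact ⟨f, fun u hu => lt_of_lt_of_le (hf1 u hu) (omegaOn_mono (erase_subset _ _)), hf2⟩
    choose f hf1 hf2 using hcols
    let S : Option (S0 × Fin ω) → Finset V := fun i =>
      i.elim S0 fun p => (W.erase p.1.1).filter fun u => f p.1 u = p.2.val
    have hSW : ∀ i, S i ⊆ W := by
      rintro (_ | p)
      · exact hS0W
      · exact (filter_subset _ _).trans (erase_subset _ _)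
    have hSind : ∀ i, G.IsIndepSet (S i : Set V) := by
      rintro (_ | p)
      · exact hS0
      · exact isIndepSet_class (hf2 p.1) _
    choose K hKW hKc hKcard hKdis using fun i => key (S i) (hSW i) (hSind i)
    have hN : Fintype.card (Option (S0 × Fin ω)) = alphaOn G W * ω + 1 := by
      simp [hS0card]
    have hle1 : ∀ i j, (K i ∩ S j).card ≤ 1 := fun i j => card_inter_le_one (hKc i) (hSind j)
    have hsum : ∀ i, ∑ j, (K i ∩ S j).card = alphaOn G W * ω := by
      intro i
      rw [Fintype.sum_option, Fintype.sum_prod_type]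
      have h1 : ∀ v : S0, (∑ c : Fin ω, (K i ∩ S (some (v, c))).card) =
          ((K i).erase v.1).card := by
        intro v
        have h2 : ((K i).erase v.1).card = ∑ c ∈ range ω,
            (((K i).erase v.1).filter fun u => f v u = c).card :=
          Finset.card_eq_sum_card_fiberwise fun u hu => mem_coe.2 (mem_range.2 (hf1 v u
            (mem_erase.2 ⟨(mem_erase.1 hu).1, hKW i (mem_erase.1 hu).2⟩)))
        rw [h2, ← Fin.sum_univ_eq_sum_range]
        refine sum_congr rfl fun c _ => ?_
        congr 1
        ext u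
        simp only [S, Option.elim_some, mem_inter, mem_filter, mem_erase]
        constructor
        · rintro ⟨h3, ⟨h4, _⟩, h5⟩; exact ⟨⟨h4, h3⟩, h5⟩
        · rintro ⟨⟨h4, h3⟩, h5⟩; exact ⟨h3, ⟨h4, hKW i h3⟩, h5⟩
      rw [sum_congr rfl fun v _ => h1 v, Finset.sum_coe_sort S0 fun v => ((K i).erase v).card]
      have h3 : ∀ v, ((K i).erase v).card + (if v ∈ K i then 1 else 0) = ω := by
        intro v
        split_ifs with hv
        · rw [card_erase_add_one hv, hKcard]
        · rw [erase_eq_of_notMem hv, hKcard, add_zero]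
      have h4 := sum_congr rfl (fun v (_ : v ∈ S0) => h3 v)
      rw [sum_add_distrib, sum_const, smul_eq_mul, hS0card, sum_boole] at h4
      have h5 : (K i ∩ S none).card = (S0.filter fun v => v ∈ K i).card := by
        congr 1
        ext u
        simp [S, and_comm]
      rw [h5]
      simpa [add_comm] using h4
    have honly : ∀ i j, j ≠ i → (K i ∩ S j).card = 1 := by
      intro i j hji
      by_contra hne
      have h0 : (K i ∩ S j).card = 0 := by have := hle1 i j; omega
      have h0i : (K i ∩ S i).card = 0 := by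
        rw [disjoint_iff_inter_eq_empty.1 (hKdis i)]; rfl
      have hi' : i ∈ univ.erase j := mem_erase.2 ⟨hji.symm, mem_univ _⟩
      have h1 := hsum i
      rw [← Finset.add_sum_erase univ _ (mem_univ j),
        ← Finset.add_sum_erase (univ.erase j) _ hi', h0, h0i] at h1
      have h2 : ∑ x ∈ (univ.erase j).erase i, (K i ∩ S x).card ≤
          ((univ.erase j).erase i).card := by
        simpa using sum_le_sum fun x (_ : x ∈ (univ.erase j).erase i) => hle1 i x
      rw [card_erase_of_mem hi', card_erase_of_mem (mem_univ j), card_univ, hN] at h2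
      have hω1 : 0 < ω := by
        obtain ⟨v, hv⟩ := hWne
        exact lt_of_lt_of_le Nat.one_pos ((card_singleton v).symm.le.trans
          (card_le_omegaOn (singleton_subset_iff.2 hv) (by simp)))
      have hα1 : 0 < alphaOn G W := by
        obtain ⟨v, hv⟩ := hWne
        exact lt_of_lt_of_le Nat.one_pos ((card_singleton v).symm.le.trans
          (card_le_alphaOn (singleton_subset_iff.2 hv) (by simp [SimpleGraph.isIndepSet_iff])))
      have := Nat.mul_pos hα1 hω1
      omega
    have hli : LinearIndependent ℚ fun j => fun v : W => if v.1 ∈ S j then (1 : ℚ) else 0 := by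
      rw [Fintype.linearIndependent_iff]
      intro c hc
      have hdot : ∀ i, ∑ j, c j * ((K i ∩ S j).card : ℚ) = 0 := by
        intro i
        have h1 : ∀ v : W, ∑ j, c j * (if v.1 ∈ S j then (1 : ℚ) else 0) = 0 := by
          intro v
          simpa [Finset.sum_apply] using congrFun hc v
        have h2 : ∀ j, ((K i ∩ S j).card : ℚ) = ∑ v ∈ K i, if v ∈ S j then (1 : ℚ) else 0 := by
          intro j
          rw [sum_boole]
          congr 2
        simp only [h2, mul_sum]
        rw [sum_comm]
        exact sum_eq_zero fun v hv => h1 ⟨v, hKW i hv⟩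
      have hci : ∀ i, c i = ∑ j, c j := by
        intro i
        have h1 := hdot i
        rw [← Finset.add_sum_erase univ _ (mem_univ i), disjoint_iff_inter_eq_empty.1 (hKdis i),
          sum_congr rfl fun j hj => by rw [honly i j (mem_erase.1 hj).1, Nat.cast_one, mul_one]]
          at h1
        rw [← Finset.add_sum_erase univ c (mem_univ i)]
        simp only [card_empty, Nat.cast_zero, mul_zero, zero_add] at h1
        rw [h1, add_zero]
      have hC : ∑ j, c j = ((alphaOn G W * ω + 1 : ℕ) : ℚ) * ∑ j, c j := by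
        conv_lhs => rw [sum_congr rfl fun j _ => hci j]
        rw [sum_const, card_univ, hN, nsmul_eq_mul]
      have hC0 : ∑ j, c j = 0 := by
        have hpos : 0 < alphaOn G W * ω := lt_of_lt_of_le (card_pos.2 hWne) (h W)
        have h2 : ((alphaOn G W * ω : ℕ) : ℚ) * ∑ j, c j = 0 := by push_cast at hC ⊢; linarith
        rcases mul_eq_zero.1 h2 with h3 | h3
        · exact absurd (Nat.cast_eq_zero.1 h3) hpos.ne'
        · exact h3
      intro i
      rw [hci i, hC0]
    have h1 := hli.fintype_card_le_finrank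
    rw [Module.finrank_fintype_fun_eq_card, Fintype.card_coe, hN] at h1
    have := h W
    rw [← hω] at this
    omega

/-- Lovász's criterion for perfection. -/
theorem colOn_iff_card_le :
    (∀ W, ColOn G W (omegaOn G W)) ↔ ∀ U : Finset V, U.card ≤ alphaOn G U * omegaOn G U :=
  ⟨fun h U => (h U).card_le, gasparian⟩

/-- The weak perfect graph theorem, for colourings inside finite sets. -/
theorem colOn_compl (h : ∀ W, ColOn G W (omegaOn G W)) (W : Finset V) :
    ColOn Gᶜ W (omegaOn Gᶜ W) := by
  refine gasparian (G := Gᶜ) (fun U => ?_) W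
  rw [alphaOn_compl, mul_comm]
  exact colOn_iff_card_le.1 h U

end FA.PerfectGraph
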