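import Mathlib

/-!
# The theorem of Graham and Pollak

The edges of the complete graph on `n` points cannot be divided into fewer than `n - 1` complete
bipartite graphs (Tverberg's proof).
-/

set_option autoImplicit false

noncomputable section

namespace FA.PerfectGraph

open Finset Classical

theorem graham_pollak_aux {V : Type*} [Fintype V] (m : ℕ) (A B : Fin m → Finset V)
    (hdis : ∀ r, Disjoint (A r) (B r))
    (hpart : ∀ x y, x ≠ y → ∃! r, (x ∈ A r ∧ y ∈ B r) ∨ (y ∈ A r ∧ x ∈ B r)) :
    Fintype.card V - 1 ≤ m := by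
  by_contra hcon
  let L : (V → ℝ) →ₗ[ℝ] (Option (Fin m) → ℝ) :=
    { toFun := fun x o => o.elim (∑ v, x v) fun r => ∑ v ∈ A r, x v
      map_add' := by intro x y; funext o; cases o <;> simp [sum_add_distrib]
      map_smul' := by intro c x; funext o; cases o <;> simp [mul_sum] }
  have hlt : Module.finrank ℝ (Option (Fin m) → ℝ) < Module.finrank ℝ (V → ℝ) := by
    simp only [Module.finrank_fintype_fun_eq_card, Fintype.card_option, Fintype.card_fin]
    omega
  have hker := LinearMap.ker_ne_bot_of_finrank_lt (f := L) hlt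
  obtain ⟨x, hx, hx0⟩ := Submodule.exists_mem_ne_zero_of_ne_bot hker
  rw [LinearMap.mem_ker] at hx
  have hS : ∑ v, x v = 0 := congrFun hx none
  have hA : ∀ r, ∑ v ∈ A r, x v = 0 := fun r => congrFun hx (some r)
  let χ : Fin m → V → V → ℝ := fun r a b =>
    (if a ∈ A r ∧ b ∈ B r then 1 else 0) + if b ∈ A r ∧ a ∈ B r then 1 else 0
  have hχ : ∀ a b, ∑ r, χ r a b = if a = b then 0 else 1 := by
    intro a b
    split_ifs with hab
    · subst hab
      refine sum_eq_zero fun r _ => ?_
      have : ¬(a ∈ A r ∧ a ∈ B r) := fun h => disjoint_left.1 (hdis r) h.1 h.2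
      simp [χ, this]
    · obtain ⟨r, hr, hu⟩ := hpart a b hab
      rw [Finset.sum_eq_single r (fun s _ hs => ?_) (by simp)]
      · rcases hr with hr | hr
        · have : ¬(b ∈ A r ∧ a ∈ B r) := fun h => disjoint_left.1 (hdis r) hr.1 h.2
          simp [χ, hr, this]
        · have : ¬(a ∈ A r ∧ b ∈ B r) := fun h => disjoint_left.1 (hdis r) hr.1 h.2
          simp [χ, hr, this]
      · have h1 : ¬(a ∈ A s ∧ b ∈ B s) := fun h => hs (hu s (Or.inl h))
        have h2 : ¬(b ∈ A s ∧ a ∈ B s) := fun h => hs (hu s (Or.inr h))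
        simp [χ, h1, h2]
  have hz : ∀ r, ∑ a, ∑ b, x a * x b * χ r a b = 0 := by
    intro r
    have h1 : ∀ P Q : Finset V, ∑ a, ∑ b, x a * x b * (if a ∈ P ∧ b ∈ Q then (1 : ℝ) else 0) =
        (∑ a ∈ P, x a) * ∑ b ∈ Q, x b := by
      intro P Q
      rw [sum_mul_sum]
      simp [mul_ite, ite_and]
    have h2 : ∑ a, ∑ b, x a * x b * (if b ∈ A r ∧ a ∈ B r then (1 : ℝ) else 0) =
        (∑ a ∈ B r, x a) * ∑ b ∈ A r, x b := by
      rw [← h1]
      simp only [and_comm]
    simp only [χ, mul_add, sum_add_distrib, h1, h2, hA r, zero_mul, mul_zero, add_zero]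
  have hsq : ∑ v, x v ^ 2 = 0 := by
    have h1 : (∑ v, x v) * ∑ v, x v = ∑ v, x v ^ 2 + ∑ a, ∑ b, x a * x b * ∑ r, χ r a b := by
      rw [sum_mul_sum, ← sum_add_distrib]
      refine sum_congr rfl fun a _ => ?_
      have hsplit : x a ^ 2 = ∑ b, if a = b then x a * x b else 0 := by simp [sq]
      rw [hsplit, ← sum_add_distrib]
      refine sum_congr rfl fun b _ => ?_
      rw [hχ]
      split_ifs <;> simp
    have h3 : ∑ a, ∑ b, x a * x b * ∑ r, χ r a b = 0 := by
      simp only [mul_sum]
      rw [sum_congr rfl fun a _ => sum_comm, sum_comm]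
      exact sum_eq_zero fun r _ => hz r
    rw [hS, h3, mul_zero, add_zero] at h1
    exact h1.symm
  exact hx0 (funext fun v => by
    have := (sum_eq_zero_iff_of_nonneg fun w _ => sq_nonneg (x w)).1 hsq v (mem_univ v)
    simpa using this)

end FA.PerfectGraph
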