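import Fermat.Agent.PerfectGraph.Gasparian

/-!
# Perfect graphs in terms of chromatic and clique numbers

The weak perfect graph theorem and Lovász's criterion for induced subgraphs; comparability graphs
and bipartite graphs are perfect, which gives the theorems of Dilworth and of König and Gallai.
-/

set_option autoImplicit false

noncomputable section

namespace FA.PerfectGraph

open Finset Classical

variable {V : Type*} {G : SimpleGraph V}

lemma induce_compl (G : SimpleGraph V) (s : Set V) : Gᶜ.induce s = (G.induce s)ᶜ := by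
  ext a b
  simp [Subtype.ext_iff]

lemma cliqueNum_induce_finset (G : SimpleGraph V) (W : Finset V) :
    (G.induce (W : Set V)).cliqueNum = omegaOn G W := by
  refine le_antisymm ?_ ?_
  · obtain ⟨t, ht⟩ := (G.induce (W : Set V)).exists_isNClique_cliqueNum
    rw [SimpleGraph.isNClique_induce_iff] at ht
    rw [← ht.card_eq]
    refine card_le_omegaOn (fun v hv => ?_) ht.isClique
    obtain ⟨x, _, rfl⟩ := mem_map.1 hv
    exact mem_coe.1 x.2
  · obtain ⟨K, h1, h2, h3⟩ := exists_omegaOn (G := G) W
    have h4 : (G.induce (W : Set V)).IsClique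
        ((K.subtype (· ∈ (W : Set V)) : Finset (W : Set V)) : Set (W : Set V)) := by
      intro a ha b hb hne
      exact h2 (mem_coe.2 (mem_subtype.1 (mem_coe.1 ha))) (mem_coe.2 (mem_subtype.1 (mem_coe.1 hb)))
        (fun he => hne (Subtype.ext he))
    refine le_trans (le_of_eq ?_) (SimpleGraph.IsClique.card_le_cliqueNum (tc := h4))
    rw [card_subtype, filter_true_of_mem fun x hx => mem_coe.2 (h1 hx), h3]

lemma indepNum_induce_finset (G : SimpleGraph V) (W : Finset V) :
    (G.induce (W : Set V)).indepNum = alphaOn G W := by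
  rw [← SimpleGraph.cliqueNum_compl, ← induce_compl, cliqueNum_induce_finset, alphaOn]

lemma colorable_induce_iff (G : SimpleGraph V) (W : Finset V) (n : ℕ) :
    (G.induce (W : Set V)).Colorable n ↔ ColOn G W n := by
  constructor
  · rintro ⟨C⟩
    refine ⟨fun v => if h : v ∈ W then (C ⟨v, mem_coe.2 h⟩).val else 0, fun v hv => ?_, ?_⟩
    · simp [hv]
    · intro u hu v hv hadj he
      simp only [hu, hv, dite_true] at he
      have hadj' : (G.induce (W : Set V)).Adj ⟨u, mem_coe.2 hu⟩ ⟨v, mem_coe.2 hv⟩ := hadj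
      exact C.valid hadj' (Fin.ext he)
  · rintro ⟨f, hf1, hf2⟩
    refine ⟨SimpleGraph.Coloring.mk (fun v => (⟨f v.1, hf1 v.1 (mem_coe.1 v.2)⟩ : Fin n)) ?_⟩
    intro u v hadj he
    exact hf2 u.1 (mem_coe.1 u.2) v.1 (mem_coe.1 v.2) hadj (congrArg Fin.val he)

lemma chromatic_eq_clique_iff (G : SimpleGraph V) (W : Finset V) :
    (G.induce (W : Set V)).chromaticNumber = (G.induce (W : Set V)).cliqueNum ↔
      ColOn G W (omegaOn G W) := by
  rw [← colorable_induce_iff, ← cliqueNum_induce_finset,
    ← SimpleGraph.chromaticNumber_le_iff_colorable]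
  refine ⟨fun h => h.le, fun h => le_antisymm h ?_⟩
  obtain ⟨t, ht⟩ := (G.induce (W : Set V)).exists_isNClique_cliqueNum
  exact ht.card_eq ▸ ht.isClique.card_le_chromaticNumber

lemma perfect_iff [Fintype V] (G : SimpleGraph V) :
    (∀ s : Set V, (G.induce s).chromaticNumber = (G.induce s).cliqueNum) ↔
      ∀ W, ColOn G W (omegaOn G W) := by
  refine ⟨fun h W => (chromatic_eq_clique_iff G W).1 (h _), fun h s => ?_⟩
  obtain ⟨W, rfl⟩ := s.toFinite.exists_finset_coe
  exact (chromatic_eq_clique_iff G W).2 (h W)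

/-- The comparability graph of a partial order. -/
def comparability (α : Type*) [PartialOrder α] : SimpleGraph α where
  Adj a b := a < b ∨ b < a
  symm := ⟨fun _ _ h => h.symm⟩
  loopless := ⟨fun a h => h.elim (lt_irrefl a) (lt_irrefl a)⟩

lemma comparability_colOn {α : Type*} [PartialOrder α] (W : Finset α) :
    ColOn (comparability α) W (omegaOn (comparability α) W) := by
  set G := comparability α with hG
  let g : α → ℕ := fun x => omegaOn G (W.filter fun c => c < x)
  have hins : ∀ x ∈ W, ∀ U, U ⊆ W → (∀ c ∈ W, c < x → c ∈ U) → x ∈ U → g x < omegaOn G U := by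
    intro x hx U hUW hU hxU
    obtain ⟨K, h1, h2, h3⟩ := exists_omegaOn (G := G) (W.filter fun c => c < x)
    have hxK : x ∉ K := fun hm => lt_irrefl x (mem_filter.1 (h1 hm)).2
    have h4 : G.IsClique ((insert x K : Finset α) : Set α) := by
      rw [coe_insert, SimpleGraph.isClique_insert]
      exact ⟨h2, fun b hb _ => Or.inr (mem_filter.1 (h1 hb)).2⟩
    have h5 := card_le_omegaOn (G := G) (W := U) (insert_subset hxU fun c hc =>
      hU c (mem_filter.1 (h1 hc)).1 (mem_filter.1 (h1 hc)).2) h4
    rw [card_insert_of_notMem hxK, h3] at h5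
    exact h5
  refine ⟨g, fun x hx => hins x hx W subset_rfl (fun c hc _ => hc) hx, ?_⟩
  have hstep : ∀ x ∈ W, ∀ y ∈ W, x < y → g x < g y := fun x hx y hy hxy =>
    hins x hx _ (filter_subset _ _) (fun c hc hcx => mem_filter.2 ⟨hc, hcx.trans hxy⟩)
      (mem_filter.2 ⟨hx, hxy⟩)
  intro u hu v hv hadj
  rcases hadj with h | h
  · exact (hstep u hu v hv h).ne
  · exact (hstep v hv u hu h).ne'

/-- Dilworth's theorem. -/
theorem dilworth_aux (α : Type*) [PartialOrder α] [Fintype α] :
    ∃ (w : ℕ) (A : Finset α) (f : α → Fin w), A.card = w ∧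
      (∀ a ∈ A, ∀ b ∈ A, a ≤ b → a = b) ∧ ∀ a b, f a = f b → a ≤ b ∨ b ≤ a := by
  obtain ⟨f, hf1, hf2⟩ := colOn_compl (G := comparability α) comparability_colOn (univ : Finset α)
  obtain ⟨A, _, hA2, hA3⟩ := exists_omegaOn (G := (comparability α)ᶜ) (univ : Finset α)
  refine ⟨A.card, A, fun a => ⟨f a, hA3.symm ▸ hf1 a (mem_univ a)⟩, rfl, ?_, ?_⟩
  · intro a ha b hb hab
    by_contra hne
    exact (hA2 (mem_coe.2 ha) (mem_coe.2 hb) hne).2 (Or.inl (lt_of_le_of_ne hab hne))
  · intro a b he
    by_contra hne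
    rw [not_or] at hne
    refine hf2 a (mem_univ a) b (mem_univ b) ⟨fun h => hne.1 h.le, ?_⟩ (congrArg Fin.val he)
    rintro (h | h)
    · exact hne.1 h.le
    · exact hne.2 h.le

lemma bipartite_colOn (h : G.Colorable 2) (W : Finset V) : ColOn G W (omegaOn G W) := by
  obtain ⟨C⟩ := h
  by_cases hedge : ∃ u ∈ W, ∃ v ∈ W, G.Adj u v
  · obtain ⟨u, hu, v, hv, huv⟩ := hedge
    have h2 : 2 ≤ omegaOn G W := by
      refine le_trans (card_pair huv.ne).ge (card_le_omegaOn ?_ ?_)
      · exact insert_subset hu (singleton_subset_iff.2 hv)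
      · rw [coe_pair]
        exact SimpleGraph.isClique_pair.2 fun _ => huv
    exact ⟨fun x => (C x).val, fun x _ => lt_of_lt_of_le (C x).isLt h2,
      fun a _ b _ hab he => C.valid hab (Fin.ext he)⟩
  · refine ⟨fun _ => 0, fun v hv => ?_, fun a ha b hb hab => absurd ⟨a, ha, b, hb, hab⟩ hedge⟩
    exact lt_of_lt_of_le Nat.one_pos ((card_singleton v).symm.le.trans
      (card_le_omegaOn (singleton_subset_iff.2 hv) (by simp)))

end FA.PerfectGraph
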